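import Mathlib

namespace Fermat.Agent.S57

open CategoryTheory IsLocalRing RingTheory.Sequence

variable {A : Type} [CommRing A] [IsLocalRing A] [IsNoetherianRing A]

theorem hasProjDimLT_of_equiv_quot_maximal (rs : List A) (reg : IsRegular A rs)
    (hrs : Ideal.ofList rs = maximalIdeal A) {K : Type} [AddCommGroup K] [Module A K]
    (e : K ≃ₗ[A] A ⧸ maximalIdeal A) :
    HasProjectiveDimensionLT (ModuleCat.of A K) (rs.length + 1) := by
  have h1 := ModuleCat.projectiveDimension_quotient_eq_length.{0} rs reg
  have h2 : HasProjectiveDimensionLT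
      (ModuleCat.of A (Shrink.{0} (A ⧸ Ideal.ofList rs))) (rs.length + 1) := by
    rw [← projectiveDimension_lt_iff, h1]
    exact_mod_cast Nat.lt_succ_self _
  let e2 : Shrink.{0} (A ⧸ Ideal.ofList rs) ≃ₗ[A] K :=
    (Shrink.linearEquiv A (A ⧸ Ideal.ofList rs)).trans
      ((Submodule.quotEquivOfEq _ _ hrs).trans e.symm)
  exact hasProjectiveDimensionLT_of_iso e2.toModuleIso _

theorem hasProjDimLT_of_isFiniteLength (rs : List A) (reg : IsRegular A rs)
    (hrs : Ideal.ofList rs = maximalIdeal A) {Q : Type} [AddCommGroup Q] [Module A Q]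
    (h : IsFiniteLength A Q) :
    HasProjectiveDimensionLT (ModuleCat.of A Q) (rs.length + 1) := by
  induction h with
  | @of_subsingleton Q _ _ _ =>
    have : HasProjectiveDimensionLT (ModuleCat.of A Q) 0 :=
      (ModuleCat.isZero_of_subsingleton _).hasProjectiveDimensionLT_zero
    exact hasProjectiveDimensionLT_of_ge _ 0 _ (Nat.zero_le _)
  | @of_simple_quotient Q _ _ N' hsimple _ ih =>
    obtain ⟨m, hm, ⟨e⟩⟩ := isSimpleModule_iff_quot_maximal.mp hsimple
    obtain rfl := eq_maximalIdeal hm
    have h3 := hasProjDimLT_of_equiv_quot_maximal rs reg hrs e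
    have hS := LinearMap.shortExact_shortComplexKer (Submodule.mkQ_surjective N')
    have h1 : HasProjectiveDimensionLT (ModuleCat.of A (LinearMap.ker N'.mkQ))
        (rs.length + 1) :=
      hasProjectiveDimensionLT_of_iso
        (LinearEquiv.ofEq _ _ (Submodule.ker_mkQ N').symm).toModuleIso _
    exact hS.hasProjectiveDimensionLT_X₂ _ h1 h3

theorem free_of_isWeaklyRegular (rs : List A) (reg : IsRegular A rs)
    (hrs : Ideal.ofList rs = maximalIdeal A) {N : Type} [AddCommGroup N] [Module A N]
    [Module.Finite A N] [Nontrivial N] (ys : List A) (hys : IsWeaklyRegular N ys)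
    (hmem : ∀ y ∈ ys, y ∈ maximalIdeal A) (hlen : ys.length = rs.length)
    (hfl : IsFiniteLength A (N ⧸ Ideal.ofList ys • (⊤ : Submodule A N))) :
    Module.Free A N := by
  have h1 := ModuleCat.projectiveDimension_quotient_eq_add_length_of_isWeaklyRegular
    (ModuleCat.of A N) ys hys hmem
  have h2 : HasProjectiveDimensionLE
      (ModuleCat.of A (N ⧸ Ideal.ofList ys • (⊤ : Submodule A N))) rs.length :=
    hasProjDimLT_of_isFiniteLength rs reg hrs hfl
  rw [← projectiveDimension_le_iff] at h2
  erw [h1] at h2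
  rw [hlen] at h2
  have h3 : projectiveDimension (ModuleCat.of A N) ≤ (0 : ℕ) := by
    have h4 : projectiveDimension (ModuleCat.of A N) + (rs.length : ℕ)
        ≤ ((0 : ℕ) : WithBot ℕ∞) + (rs.length : ℕ) := by
      simpa using h2
    exact (ENat.WithBot.add_le_add_natCast_right_iff).mp h4
  rw [projectiveDimension_le_iff] at h3
  have h5 : Projective (ModuleCat.of A N) :=
    (projective_iff_hasProjectiveDimensionLE_zero _).mpr h3
  have h6 : Module.Projective A N := by
    rwa [← IsProjective.iff_projective] at h5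
  exact Module.free_of_flat_of_isLocalRing

end Fermat.Agent.S57
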