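import Mathlib

namespace Fermat.Agent.S57

open MvPowerSeries

variable {𝒪 : Type} [CommRing 𝒪] {r : ℕ}

/-- The ideal generated by the first `i` variables. -/
noncomputable def spanXlt (𝒪 : Type) [CommRing 𝒪] (r i : ℕ) : Ideal (MvPowerSeries (Fin r) 𝒪) :=
  Ideal.span {g | ∃ j : Fin r, j.val < i ∧ g = X j}

theorem spanXlt_mono {i i' : ℕ} (h : i ≤ i') : spanXlt 𝒪 r i ≤ spanXlt 𝒪 r i' := by
  apply Ideal.span_mono
  rintro g ⟨j, hj, rfl⟩
  exact ⟨j, lt_of_lt_of_le hj h, rfl⟩

theorem coeff_eq_zero_of_mem_spanXlt (i : ℕ) (f : MvPowerSeries (Fin r) 𝒪)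
    (hf : f ∈ spanXlt 𝒪 r i) (m : Fin r →₀ ℕ) (hm : ∀ j : Fin r, j.val < i → m j = 0) :
    coeff m f = 0 := by
  classical
  induction hf using Submodule.span_induction generalizing m with
  | mem g hg =>
    obtain ⟨j, hj, rfl⟩ := hg
    rw [coeff_X, if_neg]
    rintro rfl
    have := hm j hj
    simp at this
  | zero => simp
  | add x y _ _ hx hy => rw [map_add, hx m hm, hy m hm, add_zero]
  | smul a x _ hx =>
    rw [smul_eq_mul, coeff_mul]
    apply Finset.sum_eq_zero
    rintro ⟨p, q⟩ hpq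
    rw [Finset.HasAntidiagonal.mem_antidiagonal] at hpq
    have : coeff q x = 0 := by
      apply hx
      intro j hj
      have h1 := hm j hj
      rw [← hpq] at h1
      simp only [Finsupp.coe_add, Pi.add_apply, Nat.add_eq_zero_iff] at h1
      exact h1.2
    simp [this]

theorem mem_spanXlt_of_coeff (i : ℕ) (f : MvPowerSeries (Fin r) 𝒪)
    (hf : ∀ m : Fin r →₀ ℕ, (∀ j : Fin r, j.val < i → m j = 0) → coeff m f = 0) :
    f ∈ spanXlt 𝒪 r i := by
  classical
  induction i generalizing f with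
  | zero =>
    have : f = 0 := by
      ext m
      simpa using hf m (by simp)
    rw [this]
    exact Submodule.zero_mem _
  | succ i ih =>
    by_cases hi : i < r
    · let k : Fin r := ⟨i, hi⟩
      let h : MvPowerSeries (Fin r) 𝒪 := fun m => if m k = 0 then coeff m f else 0
      have hcoeff : ∀ m, coeff m h = if m k = 0 then coeff m f else 0 := fun m => rfl
      have h1 : (X k : MvPowerSeries (Fin r) 𝒪) ∣ f - h := by
        rw [X_dvd_iff]
        intro m hm
        rw [map_sub, hcoeff, if_pos hm, sub_self]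
      have h2 : h ∈ spanXlt 𝒪 r i := by
        apply ih
        intro m hm
        rw [hcoeff]
        split_ifs with hk
        · apply hf
          intro j hj
          rcases Nat.lt_succ_iff_lt_or_eq.mp hj with hj' | hj'
          · exact hm j hj'
          · have : j = k := Fin.ext hj'
            rw [this]; exact hk
        · rfl
      obtain ⟨g, hg⟩ := h1
      have h3 : f = X k * g + h := by rw [← hg]; ring
      rw [h3]
      apply Submodule.add_mem
      · apply Ideal.mul_mem_right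
        exact Ideal.subset_span ⟨k, Nat.lt_succ_self i, rfl⟩
      · exact spanXlt_mono (Nat.le_succ i) h2
    · apply spanXlt_mono (Nat.le_succ i)
      apply ih
      intro m hm
      apply hf
      intro j _
      exact hm j (lt_of_lt_of_le j.isLt (not_lt.mp hi))

theorem mem_spanXlt_iff (i : ℕ) (f : MvPowerSeries (Fin r) 𝒪) :
    f ∈ spanXlt 𝒪 r i ↔
      ∀ m : Fin r →₀ ℕ, (∀ j : Fin r, j.val < i → m j = 0) → coeff m f = 0 :=
  ⟨coeff_eq_zero_of_mem_spanXlt i f, mem_spanXlt_of_coeff i f⟩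

end Fermat.Agent.S57

namespace Fermat.Agent.S57

open MvPowerSeries

variable {𝒪 : Type} [CommRing 𝒪] {r : ℕ}

/-- generators of the maximal ideal: the variables, then the uniformizer -/
noncomputable def gen (ϖ : 𝒪) (k : Fin (r + 1)) : MvPowerSeries (Fin r) 𝒪 :=
  if h : k.val < r then X ⟨k.val, h⟩ else C ϖ

noncomputable def genList (r : ℕ) (ϖ : 𝒪) : List (MvPowerSeries (Fin r) 𝒪) :=
  List.ofFn (gen ϖ)

theorem genList_length (ϖ : 𝒪) : (genList r ϖ).length = r + 1 := List.length_ofFn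

theorem genList_getElem_lt (ϖ : 𝒪) (k : ℕ) (hk : k < r) (hk' : k < (genList r ϖ).length) :
    (genList r ϖ)[k] = X ⟨k, hk⟩ := by
  simp only [genList, List.getElem_ofFn, gen, dif_pos hk]

theorem genList_getElem_self (ϖ : 𝒪) (hk' : r < (genList r ϖ).length) :
    (genList r ϖ)[r] = C ϖ := by
  simp only [genList, List.getElem_ofFn, gen, dif_neg (lt_irrefl r)]

theorem ofList_take_genList (ϖ : 𝒪) (i : ℕ) (hi : i ≤ r) :
    Ideal.ofList ((genList r ϖ).take i) = spanXlt 𝒪 r i := by
  unfold Ideal.ofList spanXlt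
  congr 1
  ext x
  simp only [Set.mem_ofPred_eq, List.mem_take_iff_getElem]
  constructor
  · rintro ⟨k, hk, rfl⟩
    have hk' : k < i := lt_of_lt_of_le hk (min_le_left _ _)
    refine ⟨⟨k, lt_of_lt_of_le hk' hi⟩, hk', ?_⟩
    exact genList_getElem_lt ϖ k (lt_of_lt_of_le hk' hi) _
  · rintro ⟨j, hj, rfl⟩
    have hlt : j.val < min i (genList r ϖ).length := by
      simp only [genList_length]; omega
    exact ⟨j.val, hlt, genList_getElem_lt ϖ j.val j.isLt _⟩

theorem isWeaklyRegular_genList [IsDomain 𝒪] (ϖ : 𝒪) (hϖ : ϖ ≠ 0) :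
    RingTheory.Sequence.IsWeaklyRegular (MvPowerSeries (Fin r) 𝒪) (genList r ϖ) := by
  classical
  refine ⟨fun i hi => ?_⟩
  have hi0 := hi
  rw [genList_length] at hi0
  have hi' : i ≤ r := Nat.lt_succ_iff.mp hi0
  rw [Ideal.smul_eq_mul, Ideal.mul_top, ofList_take_genList ϖ i hi',
    isSMulRegular_quotient_iff_mem_of_smul_mem]
  intro f hf
  rw [mem_spanXlt_iff] at hf ⊢
  intro m hm
  by_cases hir : i < r
  · have hgi : (genList r ϖ)[i] = X ⟨i, hir⟩ := genList_getElem_lt ϖ i hir _
    rw [hgi] at hf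
    have h1 := hf (Finsupp.single ⟨i, hir⟩ 1 + m) (by
      intro j hj
      have hne : (⟨i, hir⟩ : Fin r) ≠ j := by
        intro h
        rw [← h] at hj
        exact lt_irrefl _ hj
      simp [hm j hj, hne])
    rw [smul_eq_mul, X_def, coeff_add_monomial_mul, one_mul] at h1
    exact h1
  · have hir' : i = r := le_antisymm hi' (not_lt.mp hir)
    subst hir'
    have hgi : (genList i ϖ)[i] = C ϖ := genList_getElem_self ϖ _
    rw [hgi] at hf
    have hm0 : m = 0 := by ext j; exact hm j j.isLt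
    subst hm0
    have h1 := hf 0 (by simp)
    rw [smul_eq_mul, coeff_C_mul] at h1
    exact (mul_eq_zero.mp h1).resolve_left hϖ

theorem ofList_genList_eq_maximalIdeal [IsLocalRing 𝒪] (ϖ : 𝒪)
    (hϖ : IsLocalRing.maximalIdeal 𝒪 = Ideal.span {ϖ}) :
    Ideal.ofList (genList r ϖ) = IsLocalRing.maximalIdeal (MvPowerSeries (Fin r) 𝒪) := by
  apply le_antisymm
  · rw [Ideal.ofList, Ideal.span_le]
    intro x hx
    simp only [genList, Set.mem_ofPred_eq, List.mem_ofFn] at hx
    obtain ⟨k, rfl⟩ := hx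
    rw [SetLike.mem_coe, IsLocalRing.mem_maximalIdeal, mem_nonunits_iff,
      MvPowerSeries.isUnit_iff_constantCoeff]
    unfold gen
    split_ifs
    · simp
    · rw [constantCoeff_C]
      have : ϖ ∈ IsLocalRing.maximalIdeal 𝒪 := by
        rw [hϖ]; exact Ideal.mem_span_singleton_self ϖ
      exact this
  · intro f hf
    rw [IsLocalRing.mem_maximalIdeal, mem_nonunits_iff,
      MvPowerSeries.isUnit_iff_constantCoeff] at hf
    have h1 : constantCoeff f ∈ IsLocalRing.maximalIdeal 𝒪 := hf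
    rw [hϖ, Ideal.mem_span_singleton'] at h1
    obtain ⟨a, ha⟩ := h1
    have h2 : f - C (constantCoeff f) ∈ spanXlt 𝒪 r r := by
      rw [mem_spanXlt_iff]
      intro m hm
      have : m = 0 := by ext j; exact hm j j.isLt
      subst this
      simp
    have h3 : f = (f - C (constantCoeff f)) + C a * C ϖ := by
      rw [← map_mul, ha]; ring
    rw [h3]
    apply Submodule.add_mem
    · rw [← ofList_take_genList ϖ r le_rfl] at h2
      exact Ideal.span_mono (fun x hx => List.mem_of_mem_take hx) h2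
    · apply Ideal.mul_mem_left
      apply Ideal.subset_span
      simp only [genList, Set.mem_ofPred_eq, List.mem_ofFn]
      exact ⟨Fin.last r, by simp [gen]⟩

theorem map_X_mem_maximalIdeal [IsLocalRing 𝒪]
    (φ : MvPowerSeries (Fin r) 𝒪 →ₐ[𝒪] MvPowerSeries (Fin r) 𝒪) (i : Fin r) :
    φ (X i) ∈ IsLocalRing.maximalIdeal (MvPowerSeries (Fin r) 𝒪) := by
  rw [IsLocalRing.mem_maximalIdeal, mem_nonunits_iff]
  intro hu
  have hu' := hu
  rw [MvPowerSeries.isUnit_iff_constantCoeff] at hu'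
  have h1 : IsUnit ((X i : MvPowerSeries (Fin r) 𝒪) - C (constantCoeff (φ (X i)))) := by
    rw [MvPowerSeries.isUnit_iff_constantCoeff]
    simpa using hu'
  have h2 := h1.map φ
  have h3 : ∀ a : 𝒪, φ (C a) = C a := by
    intro a
    rw [c_eq_algebraMap]
    exact φ.commutes a
  rw [map_sub, h3, MvPowerSeries.isUnit_iff_constantCoeff, map_sub, constantCoeff_C,
    sub_self] at h2
  exact not_isUnit_zero h2

theorem map_C_eq (φ : MvPowerSeries (Fin r) 𝒪 →ₐ[𝒪] MvPowerSeries (Fin r) 𝒪) (a : 𝒪) :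
    φ (C a) = C a := by
  rw [c_eq_algebraMap]
  exact φ.commutes a

theorem spanXlt_self_eq : spanXlt 𝒪 r r = Ideal.span (Set.range fun i : Fin r => (X i : MvPowerSeries (Fin r) 𝒪)) := by
  unfold spanXlt
  congr 1
  ext g
  constructor
  · rintro ⟨j, _, rfl⟩; exact ⟨j, rfl⟩
  · rintro ⟨j, rfl⟩; exact ⟨j, j.isLt, rfl⟩

theorem sub_C_constantCoeff_mem (f : MvPowerSeries (Fin r) 𝒪) :
    f - C (constantCoeff f) ∈ Ideal.span (Set.range fun i : Fin r => (X i : MvPowerSeries (Fin r) 𝒪)) := by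
  rw [← spanXlt_self_eq, mem_spanXlt_iff]
  intro m hm
  have : m = 0 := by ext j; exact hm j j.isLt
  subst this
  simp

end Fermat.Agent.S57
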