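import Fermat.Prelude.Def_Algebra_PatchingDatum
import Fermat.Agent.S57.Homological
import Fermat.Agent.S57.PowerSeries

set_option autoImplicit false
open Algebra Algebra.PatchingLevel

namespace Fermat.Agent.S57

open MvPowerSeries IsLocalRing RingTheory.Sequence TensorProduct

section

variable {𝒪 : Type} [CommRing 𝒪] {r : ℕ} {R : Type} [CommRing R] [Algebra 𝒪 R]
    {M : Type} [AddCommGroup M] [Module R M]
    (L : Algebra.PatchingLevel 𝒪 r R M ⊥)

noncomputable def coordHom : (Fin L.d → MvPowerSeries (Fin r) 𝒪) →+ L.N where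
  toFun c := ∑ i, L.φ (c i) • L.b i
  map_zero' := by simp
  map_add' c c' := by simp [add_smul, Finset.sum_add_distrib]

theorem coordHom_apply (c : Fin L.d → MvPowerSeries (Fin r) 𝒪) :
    coordHom L c = ∑ i, L.φ (c i) • L.b i := rfl

theorem coordHom_bijective : Function.Bijective (coordHom L) := by
  constructor
  · rw [injective_iff_map_eq_zero]
    intro c hc
    have h := (L.b_rel c).mp hc
    funext i
    exact (Submodule.mem_bot _).mp (h i)
  · intro x
    obtain ⟨c, hc⟩ := L.b_span x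
    exact ⟨c, hc.symm⟩

noncomputable def coordEquiv : (Fin L.d → MvPowerSeries (Fin r) 𝒪) ≃+ L.N :=
  AddEquiv.ofBijective (coordHom L) (coordHom_bijective L)

theorem coordEquiv_smul (s : MvPowerSeries (Fin r) 𝒪)
    (c : Fin L.d → MvPowerSeries (Fin r) 𝒪) :
    coordEquiv L (s • c) = L.φ s • coordEquiv L c := by
  show coordHom L (s • c) = L.φ s • coordHom L c
  simp [coordHom_apply, Finset.smul_sum, mul_smul]

theorem isWeaklyRegular_N [IsDomain 𝒪] (ϖ : 𝒪) (hϖ : ϖ ≠ 0) :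
    IsWeaklyRegular L.N ((genList r ϖ).map L.φ) := by
  have h1 : IsWeaklyRegular (MvPowerSeries (Fin r) 𝒪) (genList r ϖ) :=
    isWeaklyRegular_genList ϖ hϖ
  have h2 : IsWeaklyRegular ((Fin L.d → MvPowerSeries (Fin r) 𝒪)
      ⊗[MvPowerSeries (Fin r) 𝒪] MvPowerSeries (Fin r) 𝒪) (genList r ϖ) :=
    h1.isWeaklyRegular_lTensor
  have h3 : IsWeaklyRegular (Fin L.d → MvPowerSeries (Fin r) 𝒪) (genList r ϖ) :=
    ((TensorProduct.rid _ _).isWeaklyRegular_congr _).mp h2
  exact ((coordEquiv L).isWeaklyRegular_congr (List.forall₂_map_right_iff.mpr <|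
    List.forall₂_same.mpr fun s _ x => coordEquiv_smul L s x)).mp h3

theorem C_mem_maximalIdeal [IsLocalRing 𝒪] (a : 𝒪) (ha : a ∈ maximalIdeal 𝒪) :
    (C a : MvPowerSeries (Fin r) 𝒪) ∈ maximalIdeal (MvPowerSeries (Fin r) 𝒪) := by
  rw [mem_maximalIdeal, mem_nonunits_iff, MvPowerSeries.isUnit_iff_constantCoeff,
    constantCoeff_C]
  exact ha

theorem map_genList_mem [IsLocalRing 𝒪] (ϖ : 𝒪) (hϖ : ϖ ∈ maximalIdeal 𝒪) :
    ∀ y ∈ (genList r ϖ).map L.φ, y ∈ maximalIdeal (MvPowerSeries (Fin r) 𝒪) := by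
  intro y hy
  rw [List.mem_map] at hy
  obtain ⟨x, hx, rfl⟩ := hy
  simp only [genList, List.mem_ofFn] at hx
  obtain ⟨k, rfl⟩ := hx
  unfold gen
  split_ifs with h
  · exact map_X_mem_maximalIdeal L.φ _
  · rw [map_C_eq]
    exact C_mem_maximalIdeal ϖ hϖ

theorem finite_N : Module.Finite (MvPowerSeries (Fin r) 𝒪) L.N := by
  apply Module.Finite.of_surjective (Fintype.linearCombination (MvPowerSeries (Fin r) 𝒪) L.b)
  intro x
  obtain ⟨c, hc⟩ := L.b_span x
  exact ⟨fun i => L.φ (c i), by rw [Fintype.linearCombination_apply]; exact hc.symm⟩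

theorem C_unif_mem_ofList (ϖ : 𝒪) :
    (C ϖ : MvPowerSeries (Fin r) 𝒪) ∈ Ideal.ofList ((genList r ϖ).map L.φ) := by
  apply Ideal.subset_span
  show _ ∈ (genList r ϖ).map L.φ
  rw [List.mem_map]
  refine ⟨C ϖ, ?_, map_C_eq L.φ ϖ⟩
  simp only [genList, List.mem_ofFn]
  exact ⟨Fin.last r, by simp [gen]⟩

theorem map_X_mem_ofList (ϖ : 𝒪) (i : Fin r) :
    L.φ (X i) ∈ Ideal.ofList ((genList r ϖ).map L.φ) := by
  apply Ideal.subset_span
  show _ ∈ (genList r ϖ).map L.φ
  rw [List.mem_map]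
  refine ⟨X i, ?_, rfl⟩
  simp only [genList, List.mem_ofFn]
  exact ⟨i.castSucc, by simp [gen]⟩

theorem map_sub_C_mem_ofList (ϖ : 𝒪) (f : MvPowerSeries (Fin r) 𝒪) :
    L.φ f - C (constantCoeff f) ∈ Ideal.ofList ((genList r ϖ).map L.φ) := by
  have h1 := sub_C_constantCoeff_mem f
  have h2 : L.φ (f - C (constantCoeff f)) ∈ Ideal.ofList ((genList r ϖ).map L.φ) := by
    have h3 : Ideal.map L.φ (Ideal.span (Set.range fun i : Fin r =>
        (X i : MvPowerSeries (Fin r) 𝒪))) ≤ Ideal.ofList ((genList r ϖ).map L.φ) := by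
      rw [Ideal.map_span, Ideal.span_le]
      rintro _ ⟨_, ⟨i, rfl⟩, rfl⟩
      exact map_X_mem_ofList L ϖ i
    exact h3 (Ideal.mem_map_of_mem _ h1)
  rwa [map_sub, map_C_eq] at h2

theorem isFiniteLength_quot [IsDomain 𝒪] [IsDiscreteValuationRing 𝒪] (ϖ : 𝒪)
    (hmax : maximalIdeal 𝒪 = Ideal.span {ϖ}) :
    IsFiniteLength (MvPowerSeries (Fin r) 𝒪)
      (L.N ⧸ (Ideal.ofList ((genList r ϖ).map L.φ) •
        (⊤ : Submodule (MvPowerSeries (Fin r) 𝒪) L.N))) := by
  have := finite_N L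
  rw [isFiniteLength_iff_isNoetherian_isArtinian]
  refine ⟨inferInstance, ?_⟩
  let _ : Module 𝒪 (L.N ⧸ (Ideal.ofList ((genList r ϖ).map L.φ) •
        (⊤ : Submodule (MvPowerSeries (Fin r) 𝒪) L.N))) :=
    Module.compHom _ (algebraMap 𝒪 (MvPowerSeries (Fin r) 𝒪))
  have : IsScalarTower 𝒪 (MvPowerSeries (Fin r) 𝒪)
      (L.N ⧸ (Ideal.ofList ((genList r ϖ).map L.φ) •
        (⊤ : Submodule (MvPowerSeries (Fin r) 𝒪) L.N))) :=
    IsScalarTower.of_algebraMap_smul (fun _ _ => rfl)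
  apply isArtinian_of_tower 𝒪
  have hsmul : ∀ (a : 𝒪) (x : L.N),
      a • (Submodule.Quotient.mk x : L.N ⧸ (Ideal.ofList ((genList r ϖ).map L.φ) •
        (⊤ : Submodule (MvPowerSeries (Fin r) 𝒪) L.N))) =
        Submodule.Quotient.mk ((C a : MvPowerSeries (Fin r) 𝒪) • x) := fun a x => rfl
  have htors : Module.IsTorsionBySet 𝒪 (L.N ⧸ (Ideal.ofList ((genList r ϖ).map L.φ) •
        (⊤ : Submodule (MvPowerSeries (Fin r) 𝒪) L.N))) (maximalIdeal 𝒪 : Set 𝒪) := by
    intro q a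
    obtain ⟨x, rfl⟩ := Submodule.Quotient.mk_surjective _ q
    rw [hsmul, Submodule.Quotient.mk_eq_zero]
    apply Submodule.smul_mem_smul _ Submodule.mem_top
    have ha : (a : 𝒪) ∈ Ideal.span {ϖ} := hmax ▸ a.2
    obtain ⟨a', ha'⟩ := Ideal.mem_span_singleton'.mp ha
    rw [← ha', map_mul]
    exact Ideal.mul_mem_left _ _ (C_unif_mem_ofList L ϖ)
  have hfin : Module.Finite 𝒪 (L.N ⧸ (Ideal.ofList ((genList r ϖ).map L.φ) •
        (⊤ : Submodule (MvPowerSeries (Fin r) 𝒪) L.N))) := by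
    apply Module.Finite.of_surjective (Fintype.linearCombination 𝒪
      (fun i => (Submodule.Quotient.mk (L.b i) :
        L.N ⧸ (Ideal.ofList ((genList r ϖ).map L.φ) •
        (⊤ : Submodule (MvPowerSeries (Fin r) 𝒪) L.N)))))
    intro q
    obtain ⟨x, rfl⟩ := Submodule.Quotient.mk_surjective _ q
    obtain ⟨c, rfl⟩ := L.b_span x
    refine ⟨fun i => constantCoeff (c i), ?_⟩
    rw [Fintype.linearCombination_apply]
    simp only [hsmul]
    simp only [← Submodule.mkQ_apply]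
    rw [← map_sum, ← sub_eq_zero, ← map_sub, Submodule.mkQ_apply,
      Submodule.Quotient.mk_eq_zero, ← Finset.sum_sub_distrib]
    apply Submodule.sum_mem
    intro i _
    rw [← sub_smul]
    apply Submodule.smul_mem_smul _ Submodule.mem_top
    rw [← neg_sub]
    exact neg_mem (map_sub_C_mem_ofList L ϖ (c i))
  let _ := htors.module
  let _ : Field (𝒪 ⧸ maximalIdeal 𝒪) := Ideal.Quotient.field _
  have hss : IsSemisimpleModule (𝒪 ⧸ maximalIdeal 𝒪)
      (L.N ⧸ (Ideal.ofList ((genList r ϖ).map L.φ) •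
        (⊤ : Submodule (MvPowerSeries (Fin r) 𝒪) L.N))) := inferInstance
  have hss' : IsSemisimpleModule 𝒪 (L.N ⧸ (Ideal.ofList ((genList r ϖ).map L.φ) •
        (⊤ : Submodule (MvPowerSeries (Fin r) 𝒪) L.N))) :=
    htors.isSemisimpleModule_iff.mp hss
  infer_instance

theorem free_N [IsDomain 𝒪] [IsDiscreteValuationRing 𝒪] [Nontrivial M] :
    Module.Free (MvPowerSeries (Fin r) 𝒪) L.N := by
  obtain ⟨ϖ, hϖ⟩ := IsDiscreteValuationRing.exists_irreducible 𝒪
  have hmax : maximalIdeal 𝒪 = Ideal.span {ϖ} := hϖ.maximalIdeal_eq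
  have hϖmem : ϖ ∈ maximalIdeal 𝒪 := by rw [hmax]; exact Ideal.mem_span_singleton_self ϖ
  have := finite_N L
  have : Nontrivial L.N := L.π_surjective.nontrivial
  have hreg : IsRegular (MvPowerSeries (Fin r) 𝒪) (genList r ϖ) := by
    apply IsRegular.of_isWeaklyRegular_of_mem_maximalIdeal _ _
      (isWeaklyRegular_genList ϖ hϖ.ne_zero)
    intro x hx
    rw [← ofList_genList_eq_maximalIdeal ϖ hmax]
    exact Ideal.subset_span hx
  exact free_of_isWeaklyRegular (genList r ϖ) hreg (ofList_genList_eq_maximalIdeal ϖ hmax)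
    ((genList r ϖ).map L.φ) (isWeaklyRegular_N L ϖ hϖ.ne_zero) (map_genList_mem L ϖ hϖmem)
    (by simp) (isFiniteLength_quot L ϖ hmax)

theorem mem_smul_top_iff_repr {S N ι : Type} [CommRing S] [AddCommGroup N] [Module S N]
    (B : Module.Basis ι S N) (I : Ideal S) (x : N) :
    x ∈ I • (⊤ : Submodule S N) ↔ ∀ j, B.repr x j ∈ I := by
  rw [← B.span_eq, Submodule.mem_ideal_smul_span_iff_exists_sum]
  constructor
  · rintro ⟨a, ha, rfl⟩ j
    have h : B.repr (a.sum fun i c => c • B i) = a := by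
      rw [← Finsupp.linearCombination_apply, B.repr_linearCombination]
    rw [h]
    exact ha j
  · intro h
    exact ⟨B.repr x, h, by rw [← Finsupp.linearCombination_apply, B.linearCombination_repr]⟩

theorem conclusions [Nontrivial M] (hfree : Module.Free (MvPowerSeries (Fin r) 𝒪) L.N) :
    Module.Free R M ∧ Module.annihilator R M = ⊥ ∧
      RingHom.ker L.ψ = Ideal.span (Set.range fun i : Fin r => L.φ (MvPowerSeries.X i)) := by
  classical
  let ι := Module.Free.ChooseBasisIndex (MvPowerSeries (Fin r) 𝒪) L.N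
  let B : Module.Basis ι (MvPowerSeries (Fin r) 𝒪) L.N :=
    Module.Free.chooseBasis (MvPowerSeries (Fin r) 𝒪) L.N
  have : Nontrivial L.N := L.π_surjective.nontrivial
  obtain ⟨j₀⟩ : Nonempty ι := B.index_nonempty
  have hker : ∀ x : L.N, L.π x = 0 ↔ ∀ j, B.repr x j ∈
      Ideal.span (Set.range fun i : Fin r => L.φ (MvPowerSeries.X i)) := fun x =>
    (L.ker_π x).trans (mem_smul_top_iff_repr B _ x)
  have hIle : Ideal.span (Set.range fun i : Fin r => L.φ (MvPowerSeries.X i)) ≤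
      RingHom.ker L.ψ := by
    rw [Ideal.span_le]
    rintro _ ⟨i, rfl⟩
    exact L.ψ_φ_X i
  have hkerψ : RingHom.ker L.ψ =
      Ideal.span (Set.range fun i : Fin r => L.φ (MvPowerSeries.X i)) := by
    apply le_antisymm _ hIle
    intro f hf
    have h1 : L.π (f • B j₀) = 0 := by
      rw [L.π_smul, (RingHom.mem_ker).mp hf, zero_smul]
    have h2 := (hker _).mp h1 j₀
    simpa using h2
  let g : (ι →₀ R) →ₗ[R] M := Finsupp.linearCombination R (fun j => L.π (B j))
  have hπ : ∀ c : ι →₀ MvPowerSeries (Fin r) 𝒪,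
      L.π (Finsupp.linearCombination (MvPowerSeries (Fin r) 𝒪) B c) =
        g (c.mapRange L.ψ (map_zero _)) := by
    intro c
    rw [Finsupp.linearCombination_apply, Finsupp.linearCombination_apply, map_finsuppSum,
      Finsupp.sum_mapRange_index (by intro; simp)]
    simp [L.π_smul]
  have hsurj : Function.Surjective g := by
    intro m
    obtain ⟨x, rfl⟩ := L.π_surjective m
    refine ⟨(B.repr x).mapRange L.ψ (map_zero _), ?_⟩
    rw [← hπ, B.linearCombination_repr]
  have hinj : Function.Injective g := by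
    rw [injective_iff_map_eq_zero]
    intro a ha
    obtain ⟨c, rfl⟩ := Finsupp.mapRange_surjective L.ψ (map_zero _) L.ψ_surjective a
    rw [← hπ] at ha
    have h2 := (hker _).mp ha
    ext j
    have h3 := h2 j
    rw [B.repr_linearCombination] at h3
    simpa using hIle h3
  have hfreeM : Module.Free R M :=
    Module.Free.of_equiv (LinearEquiv.ofBijective g ⟨hinj, hsurj⟩)
  refine ⟨hfreeM, ?_, hkerψ⟩
  exact Module.annihilator_eq_bot.mpr inferInstance

end

end Fermat.Agent.S57
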